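/-
P-SS, row 960 (helper98): **SS-HM-GB** the good basis statement in the chart `H`, the
Hauptmodul of level 4 of helper8 (`Fermat.Agent.H8.SS.h4S`).

`modelGoodBasis_h4 (N ℓ) (hl : ℓ.Prime) (hN : ¬ ℓ ∣ N) (h2 : ℓ ≠ 2) :
    ModelGoodBasisStatement N ℓ (h4S ℚ)`

(no hypothesis `4 ∣ N` is needed: the statement quantifies over the elements `x` of the model
field with expansion `H`, and then `t₂ = x² / (x + 16)` lies in the model field as well).

Proof: the tower step `H35.KLGB.goodBasis_tower` from the chart `t₂` (landed: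
`H27.KLGB.modelGoodBasis_t2`) to the chart `u = H + 16`, with the relation
`t₂ u = (u - 16)²` (`h4S_sq`), `R = (X - 16)²`, `R(0) = 256` a unit for `ℓ` odd; and the charts
`u = H + 16` and `H` have the same chart ring (`goodBasis_add_algebraMap`).
-/
import Fermat.Agent.H27.KLGB.ModelTower
import Fermat.Agent.H8.SS.Haupt4
import Fermat.Agent.H98.KL.LaurentConst

set_option autoImplicit false
set_option linter.style.haveILetI false
set_option linter.unusedSectionVars false
set_option linter.unusedVariables false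
set_option synthInstance.maxHeartbeats 400000
set_option maxHeartbeats 1000000

noncomputable section

open ModularCurve Polynomial IntermediateField
open Fermat.Agent.H22.KL Fermat.Agent.H67.KLConn

namespace Fermat.Agent.H98.SS

section Generic

variable (A : Type) [CommRing A] (E : Type) [Field E] [Algebra A E]

/-- `GoodBasis` in terms of the chart ring only. -/
def GoodBasisOfRing (R : Subalgebra A E) (ϖ : A) : Prop :=
  ∃ (n : ℕ) (b : Module.Basis (Fin n) (Subfield.closure (R : Set E)) E),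
    (∀ i, b i ∈ (integralClosure R E).restrictScalars A) ∧
    ¬ PiDvd ϖ R 1
      ((Algebra.discr (Subfield.closure (R : Set E)) (fun i => b i) :
        Subfield.closure (R : Set E)) : E)

theorem goodBasis_iff_ofRing (ϖ : A) (x : E) :
    GoodBasis A E ϖ x ↔ GoodBasisOfRing A E (chartRing A E x) ϖ := Iff.rfl

/-- `GoodBasis` depends on the chart only through the chart ring `A[x]`. -/
theorem goodBasis_of_chartRing_eq (ϖ : A) {x y : E}
    (h : chartRing A E x = chartRing A E y) (hx : GoodBasis A E ϖ x) : GoodBasis A E ϖ y := by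
  rw [goodBasis_iff_ofRing] at hx ⊢
  rw [← h]
  exact hx

theorem chartRing_add_algebraMap (x : E) (c : A) :
    chartRing A E (x + algebraMap A E c) = chartRing A E x := by
  unfold chartRing
  apply le_antisymm
  · rw [Algebra.adjoin_le_iff, Set.singleton_subset_iff]
    exact add_mem (Algebra.subset_adjoin rfl) (Subalgebra.algebraMap_mem _ c)
  · rw [Algebra.adjoin_le_iff, Set.singleton_subset_iff]
    have h1 : (x + algebraMap A E c) - algebraMap A E c ∈
        Algebra.adjoin A {x + algebraMap A E c} :=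
      sub_mem (Algebra.subset_adjoin rfl) (Subalgebra.algebraMap_mem _ c)
    rwa [add_sub_cancel_right] at h1

/-- A good basis in the chart `x + c` is a good basis in the chart `x`, `c ∈ A`. -/
theorem goodBasis_add_algebraMap (ϖ : A) (x : E) (c : A)
    (h : GoodBasis A E ϖ (x + algebraMap A E c)) : GoodBasis A E ϖ x :=
  goodBasis_of_chartRing_eq A E ϖ (chartRing_add_algebraMap A E x c) h

end Generic

/-- `coeffEmb K₁ (h4S ℚ) = h4S K₁`. -/
theorem coeffEmb_h4S (K₁ : Type) [Field K₁] [Algebra ℚ K₁] :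
    coeffEmb K₁ (Fermat.Agent.H8.SS.h4S ℚ) = Fermat.Agent.H8.SS.h4S K₁ := by
  rw [coeffEmb, Fermat.Agent.H8.SS.coeffMap_h4S]

/-- `coeffEmb K₁ (t2S ℚ) = t2S K₁`. -/
theorem coeffEmb_t2S (K₁ : Type) [Field K₁] [Algebra ℚ K₁] :
    coeffEmb K₁ (Fermat.Agent.H17.ESD.t2S ℚ) = Fermat.Agent.H17.ESD.t2S K₁ := by
  rw [coeffEmb, Fermat.Agent.H17.ESD.coeffMap_t2S]

/-- `H + c` is not algebraic over the constants. -/
theorem h4S_add_not_isAlgebraic (K₁ : Type) [Field K₁] (c : K₁) :
    ¬ IsAlgebraic K₁ (Fermat.Agent.H8.SS.h4S K₁ + algebraMap K₁ (LaurentSeries K₁) c) := by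
  intro h
  obtain ⟨d, hd⟩ := Fermat.Agent.H98.KL.exists_const_of_isAlgebraic _ h
  have h1 := congrArg (fun z : LaurentSeries K₁ => z.coeff (-1)) hd
  simp only [HahnSeries.coeff_add, Fermat.Agent.H8.SS.h4S_coeff_neg_one,
    Fermat.Agent.H98.KL.algebraMap_eq_C, HahnSeries.C_apply] at h1
  rw [HahnSeries.coeff_single_of_ne (by norm_num), HahnSeries.coeff_single_of_ne (by norm_num),
    add_zero] at h1
  exact zero_ne_one h1

/-- **KL-M-TR in the chart `H`**: the Hauptmodul of level 4 is transcendental over `A₀`. -/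
theorem modelTranscendental_h4 (N : ℕ) :
    ModelTranscendentalStatement N (Fermat.Agent.H8.SS.h4S ℚ) := by
  intro K₁ _ _ A₀ _ _ _ _ _ _ x hx halg
  have halgK : IsAlgebraic K₁ x := (IsFractionRing.isAlgebraic_iff A₀ K₁ _).mp halg
  have halgL : IsAlgebraic K₁ (algebraMap (ModelField K₁ N) (LaurentSeries K₁) x) :=
    halgK.algebraMap (A := LaurentSeries K₁)
  have hιx : algebraMap (ModelField K₁ N) (LaurentSeries K₁) x = Fermat.Agent.H8.SS.h4S K₁ := by
    show (x : LaurentSeries K₁) = _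
    rw [hx, coeffEmb_h4S]
  rw [hιx] at halgL
  have h := h4S_add_not_isAlgebraic K₁ 0
  rw [map_zero, add_zero] at h
  exact h halgL

/-- **SS-HM-GB**: the good basis statement in the chart `H` (Hauptmodul of level 4), for every
odd prime `ℓ ∤ N`. -/
theorem modelGoodBasis_h4 (N ℓ : ℕ) [NeZero N] (hl : ℓ.Prime) (hN : ¬ ℓ ∣ N) (h2 : ℓ ≠ 2) :
    ModelGoodBasisStatement N ℓ (Fermat.Agent.H8.SS.h4S ℚ) := by
  classical
  intro K₁ _ _ _ A₀ _ _ _ _ _ _ _ hℓ ϖ hϖ x hx
  haveI : CharZero K₁ := algebraRat.charZero K₁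
  haveI : CharZero (ModelField K₁ N) :=
    charZero_of_injective_algebraMap (algebraMap K₁ (ModelField K₁ N)).injective
  set ι : ModelField K₁ N →+* LaurentSeries K₁ :=
    algebraMap (ModelField K₁ N) (LaurentSeries K₁) with hι
  have hιinj : Function.Injective ι := FaithfulSMul.algebraMap_injective _ _
  have hιx : ι x = Fermat.Agent.H8.SS.h4S K₁ := by
    show (x : LaurentSeries K₁) = _
    rw [hx, coeffEmb_h4S]
  -- the constant `16`
  have hι16 : ι (algebraMap A₀ (ModelField K₁ N) 16) = 16 := by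
    rw [map_ofNat, map_ofNat]
  set u : ModelField K₁ N := x + algebraMap A₀ (ModelField K₁ N) 16 with hu
  have hu' : u = x + 16 := by rw [hu, map_ofNat]
  have hιu : ι u = Fermat.Agent.H8.SS.h4S K₁ + 16 := by
    rw [hu', map_add, hιx, map_ofNat]
  -- `u` is transcendental
  have hutr : Transcendental A₀ u := by
    intro halg
    have halgK : IsAlgebraic K₁ u := (IsFractionRing.isAlgebraic_iff A₀ K₁ _).mp halg
    have halgL : IsAlgebraic K₁ (ι u) := by
      have := halgK.algebraMap (A := LaurentSeries K₁)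
      exact this
    rw [hιu] at halgL
    have h16 : (16 : LaurentSeries K₁) = algebraMap K₁ (LaurentSeries K₁) 16 := by
      rw [map_ofNat]
    rw [h16] at halgL
    exact h4S_add_not_isAlgebraic K₁ 16 halgL
  have hu0 : u ≠ 0 := by
    rintro h0
    exact hutr (h0 ▸ isAlgebraic_zero)
  -- `t₂` in the model field
  set t2E : ModelField K₁ N := x ^ 2 / u with ht2E
  have hrel0 : t2E * u = x ^ 2 := by
    rw [ht2E, div_mul_cancel₀ _ hu0]
  have hιt2 : ι t2E = Fermat.Agent.H17.ESD.t2S K₁ := by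
    have h1 : ι t2E * ι u = ι x ^ 2 := by
      rw [← map_mul, hrel0, map_pow]
    rw [hιx, Fermat.Agent.H8.SS.h4S_sq K₁, hιu] at h1
    have hne : Fermat.Agent.H8.SS.h4S K₁ + 16 ≠ 0 := by
      rw [← hιu]
      exact fun h => hu0 (hιinj (by rw [h, map_zero]))
    exact mul_right_cancel₀ hne h1
  have hGB2 : GoodBasis A₀ (ModelField K₁ N) ϖ t2E :=
    Fermat.Agent.H27.KLGB.modelGoodBasis_t2 N ℓ hl hN h2 K₁ A₀ hℓ ϖ hϖ t2E (by
      show ι t2E = _
      rw [hιt2, coeffEmb_t2S])
  -- the tower step `t₂ → u`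
  have hRm : ((Polynomial.X - Polynomial.C (16 : A₀)) ^ 2 : A₀[X]).Monic :=
    (Polynomial.monic_X_sub_C (16 : A₀)).pow 2
  have hRdeg : ((Polynomial.X - Polynomial.C (16 : A₀)) ^ 2 : A₀[X]).natDegree = 2 := by
    rw [(Polynomial.monic_X_sub_C (16 : A₀)).natDegree_pow, Polynomial.natDegree_X_sub_C]
  have hR0 : IsUnit (((Polynomial.X - Polynomial.C (16 : A₀)) ^ 2 : A₀[X]).coeff 0) := by
    rw [Polynomial.coeff_zero_eq_eval_zero]
    simp only [Polynomial.eval_pow, Polynomial.eval_sub, Polynomial.eval_X,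
      Polynomial.eval_C, zero_sub]
    have h3 := Fermat.Agent.H27.KLGB.not_dvd_pow_of_prime_ne hl Nat.prime_two h2 8
    have h4 := Fermat.Agent.H27.KLGB.isUnit_intCast_of_not_dvd ℓ hl hℓ ((2 : ℤ) ^ 8)
      (by exact_mod_cast h3)
    have h5 : (((2 : ℤ) ^ 8 : ℤ) : A₀) = (-16 : A₀) ^ 2 := by
      push_cast
      norm_num
    rwa [h5] at h4
  have hrel : t2E * u ^ 1 =
      Polynomial.aeval u ((Polynomial.X - Polynomial.C (16 : A₀)) ^ 2 : A₀[X]) := by
    rw [pow_one, hrel0, map_pow, map_sub, Polynomial.aeval_X, Polynomial.aeval_C, hu]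
    ring
  have hGBu : GoodBasis A₀ (ModelField K₁ N) ϖ u :=
    Fermat.Agent.H35.KLGB.goodBasis_tower A₀ (ModelField K₁ N) ϖ hϖ t2E u hutr
      ((Polynomial.X - Polynomial.C (16 : A₀)) ^ 2) 1 hRm le_rfl (by rw [hRdeg]; norm_num)
      hR0 hrel hGB2
  exact goodBasis_add_algebraMap A₀ (ModelField K₁ N) ϖ x 16 hGBu

end Fermat.Agent.H98.SS
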